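import Fermat.Agent.SzpiroLine.Basic
import Mathlib.AlgebraicGeometry.EllipticCurve.VariableChange
import Mathlib.FieldTheory.RatFunc.AsPolynomial
import Mathlib.Tactic.FieldSimp

/-!
# Minimal short models over `k(T)`

Every elliptic curve over `k(T)` has an equation `y² = x³ - 27 A x - 54 B` with `A`, `B` in `k[T]`
and no place, infinity included, with `(4, 6)` to spare.
-/

set_option autoImplicit false
set_option linter.unusedSectionVars false

noncomputable section

open Polynomial WeierstrassCurve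
open scoped Classical

namespace FA.SzpiroLine

variable {k : Type*} [Field k]

/-- The short equation of a pair. -/
def shortEq (A B : k[X]) : WeierstrassCurve (RatFunc k) :=
  ⟨0, 0, 0, -27 * algebraMap k[X] (RatFunc k) A, -54 * algebraMap k[X] (RatFunc k) B⟩

theorem c₄_shortEq (A B : k[X]) :
    (shortEq A B).c₄ = 6 ^ 4 * algebraMap k[X] (RatFunc k) A := by
  simp only [shortEq, c₄, b₂, b₄]; ring

theorem Δ_shortEq (A B : k[X]) :
    (shortEq A B).Δ = 2 ^ 6 * 3 ^ 9 * algebraMap k[X] (RatFunc k) (A ^ 3 - B ^ 2) := by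
  simp only [shortEq, WeierstrassCurve.Δ, b₂, b₄, b₆, b₈, map_sub, map_pow]; ring

variable [CharZero k]

/-- Some short model with coefficients in `k[T]`. -/
theorem exists_short_model (E : WeierstrassCurve (RatFunc k)) :
    ∃ (A B : k[X]) (C₀ : VariableChange (RatFunc k)), C₀ • E = shortEq A B := by
  set g := algebraMap k[X] (RatFunc k)
  set d := E.c₄.denom * E.c₆.denom
  have hd : g d ≠ 0 :=
    RatFunc.algebraMap_ne_zero (mul_ne_zero E.c₄.denom_ne_zero E.c₆.denom_ne_zero)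
  have h4 : E.c₄ * g E.c₄.denom = g E.c₄.num :=
    (eq_div_iff (RatFunc.algebraMap_ne_zero E.c₄.denom_ne_zero)).1 (RatFunc.num_div_denom _).symm
  have h6 : E.c₆ * g E.c₆.denom = g E.c₆.num :=
    (eq_div_iff (RatFunc.algebraMap_ne_zero E.c₆.denom_ne_zero)).1 (RatFunc.num_div_denom _).symm
  refine ⟨E.c₄.num * E.c₆.denom * d ^ 3, E.c₆.num * E.c₄.denom * d ^ 5,
    ⟨Units.mk0 (g d)⁻¹ (inv_ne_zero hd), 0, 0, 0⟩ *
      ⟨Units.mk0 (1 / 6 : RatFunc k) (by norm_num), -E.b₂ / 12, -E.a₁ / 2,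
        E.a₁ * E.b₂ / 24 - E.a₃ / 2⟩, ?_⟩
  have e4 : g (E.c₄.num * E.c₆.denom * d ^ 3) = g d ^ 4 * E.c₄ := by
    simp only [map_mul, map_pow, ← h4, d]; ring
  have e6 : g (E.c₆.num * E.c₄.denom * d ^ 5) = g d ^ 6 * E.c₆ := by
    simp only [map_mul, map_pow, ← h6, d]; ring
  rw [mul_smul, shortEq, e4, e6]
  ext <;> simp only [variableChange_a₁, variableChange_a₂, variableChange_a₃, variableChange_a₄,
    variableChange_a₆, Units.val_inv_eq_inv_val, Units.val_mk0,
    WeierstrassCurve.c₄, WeierstrassCurve.c₆, WeierstrassCurve.b₂, WeierstrassCurve.b₄,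
    WeierstrassCurve.b₆, inv_inv, g]
  all_goals field_simp
  all_goals ring

/-- Reduction to a model minimal at every finite place. -/
theorem exists_finite_minimal (E : WeierstrassCurve (RatFunc k)) [E.IsElliptic] (n : ℕ) :
    ∀ (A B : k[X]) (C₀ : VariableChange (RatFunc k)), C₀ • E = shortEq A B →
      A.natDegree + B.natDegree ≤ n → ∃ (A' B' : k[X]) (C₁ : VariableChange (RatFunc k)),
        C₁ • E = shortEq A' B' ∧ ∀ t : k, ¬((X - C t) ^ 4 ∣ A' ∧ (X - C t) ^ 6 ∣ B') := by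
  induction n using Nat.strong_induction_on with
  | _ n ih =>
    intro A B C₀ h hdeg
    by_cases hmin : ∀ t : k, ¬((X - C t) ^ 4 ∣ A ∧ (X - C t) ^ 6 ∣ B)
    · exact ⟨A, B, C₀, h, hmin⟩
    push Not at hmin
    obtain ⟨t, ⟨A', hA⟩, ⟨B', hB⟩⟩ := hmin
    have hD : A ^ 3 - B ^ 2 ≠ 0 := fun e => by
      have h1 := (C₀ • E).isUnit_Δ.ne_zero
      rw [h, Δ_shortEq, e, map_zero, mul_zero] at h1
      exact h1 rfl
    have hu : algebraMap k[X] (RatFunc k) (X - C t) ≠ 0 :=
      RatFunc.algebraMap_ne_zero (X_sub_C_ne_zero t)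
    have hstep : (⟨Units.mk0 _ hu, 0, 0, 0⟩ : VariableChange (RatFunc k)) • shortEq A B =
        shortEq A' B' := by
      ext <;> simp only [variableChange_a₁, variableChange_a₂, variableChange_a₃,
        variableChange_a₄, variableChange_a₆, Units.val_inv_eq_inv_val, Units.val_mk0, shortEq,
        hA, hB, map_mul, map_pow]
      all_goals field_simp
      all_goals ring
    have hlt : A'.natDegree + B'.natDegree < n := by
      have hA4 : ∀ (p : k[X]) (e : ℕ), p ≠ 0 →
          ((X - C t) ^ e * p).natDegree = e + p.natDegree := fun p e hp => by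
        rw [natDegree_mul (pow_ne_zero _ (X_sub_C_ne_zero t)) hp, natDegree_pow,
          natDegree_X_sub_C, mul_one]
      rcases eq_or_ne A' 0 with rfl | hA'
      · rcases eq_or_ne B' 0 with rfl | hB'
        · exact absurd (by rw [hA, hB]; ring) hD
        · rw [hA, hB, mul_zero, natDegree_zero, hA4 _ _ hB'] at hdeg
          rw [natDegree_zero]; omega
      · rcases eq_or_ne B' 0 with rfl | hB'
        · rw [hA, hB, mul_zero, natDegree_zero, hA4 _ _ hA'] at hdeg
          rw [natDegree_zero]; omega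
        · rw [hA, hB, hA4 _ _ hA', hA4 _ _ hB'] at hdeg
          omega
    exact ih _ hlt A' B' _ (by rw [mul_smul, h, hstep]) le_rfl

/-- **Every curve has a minimal short model.** -/
theorem exists_minimal_model (E : WeierstrassCurve (RatFunc k)) [E.IsElliptic] :
    ∃ (A B : k[X]) (m : ℕ) (C₀ : VariableChange (RatFunc k)),
      C₀ • E = shortEq A B ∧ A ^ 3 - B ^ 2 ≠ 0 ∧ Minimal A B m := by
  obtain ⟨A₀, B₀, C', h⟩ := exists_short_model E
  obtain ⟨A, B, C₀, hE, hmin⟩ := exists_finite_minimal E _ A₀ B₀ C' h le_rfl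
  have hex : ∃ m, A.natDegree ≤ 4 * m ∧ B.natDegree ≤ 6 * m :=
    ⟨A.natDegree + B.natDegree, by omega, by omega⟩
  refine ⟨A, B, Nat.find hex, C₀, hE, fun e => ?_, (Nat.find_spec hex).1, (Nat.find_spec hex).2,
    ?_, hmin⟩
  · have h1 := (C₀ • E).isUnit_Δ.ne_zero
    rw [hE, Δ_shortEq, e, map_zero, mul_zero] at h1
    exact h1 rfl
  · rintro ⟨h4, h6⟩
    refine Nat.find_min hex (m := Nat.find hex - 1) ?_ ⟨by omega, by omega⟩
    omega

/-- A constant ratio gives a constant invariant. -/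
theorem nonconst_of_j (E : WeierstrassCurve (RatFunc k)) [E.IsElliptic]
    (hj : ∀ c : k, E.j ≠ algebraMap k (RatFunc k) c) {A B : k[X]}
    {C₀ : VariableChange (RatFunc k)} (h : C₀ • E = shortEq A B) :
    ¬∃ c : k, A ^ 3 = C c * (A ^ 3 - B ^ 2) := by
  rintro ⟨c, hc⟩
  refine hj (1728 * c) ?_
  have h4 : (C₀ • E).c₄ = 6 ^ 4 * algebraMap k[X] (RatFunc k) A := by rw [h, c₄_shortEq]
  have hΔ : (C₀ • E).Δ = 2 ^ 6 * 3 ^ 9 * algebraMap k[X] (RatFunc k) (A ^ 3 - B ^ 2) := by
    rw [h, Δ_shortEq]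
  have hgc : algebraMap k[X] (RatFunc k) A ^ 3 =
      algebraMap k (RatFunc k) c * algebraMap k[X] (RatFunc k) (A ^ 3 - B ^ 2) := by
    rw [← map_pow, IsScalarTower.algebraMap_apply k k[X] (RatFunc k) c, Polynomial.algebraMap_eq,
      ← map_mul, ← hc]
  rw [← variableChange_j E C₀, WeierstrassCurve.j, Units.val_inv_eq_inv_val,
    WeierstrassCurve.coe_Δ', inv_mul_eq_iff_eq_mul₀ (C₀ • E).isUnit_Δ.ne_zero, h4, hΔ, mul_pow,
    hgc, map_mul, map_ofNat]
  ring

end FA.SzpiroLine
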