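import Mathlib.FieldTheory.IsAlgClosed.Basic
import Mathlib.Algebra.Polynomial.Derivative
import Mathlib.RingTheory.Polynomial.UniqueFactorization
import Mathlib.Tactic.LinearCombination
import Mathlib.Tactic.ComputeDegree

/-!
# Szpiro's inequality for `A³ - B²` over `k[T]`

For `D = A³ - B²` and `V = 3 A' B - 2 A B'` one has `D' A - 3 D A' = B V` and
`D' B - 2 D B' = A² V`. At a minimal place the order of `D` exceeds that of `V` by at most one if
`A` does not vanish there and by at most two in general, and `V` has degree at most `10 m - 2`.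
-/

set_option autoImplicit false
set_option linter.unusedSectionVars false

noncomputable section

open Polynomial
open scoped Classical

namespace FA.SzpiroLine

variable {k : Type*} [Field k]

/-- The pair is minimal of level `m`: no place, infinity included, has `(4, 6)` to spare. -/
def Minimal (A B : k[X]) (m : ℕ) : Prop :=
  A.natDegree ≤ 4 * m ∧ B.natDegree ≤ 6 * m ∧
    ¬(A.natDegree + 4 ≤ 4 * m ∧ B.natDegree + 6 ≤ 6 * m) ∧
    ∀ t : k, ¬((X - C t) ^ 4 ∣ A ∧ (X - C t) ^ 6 ∣ B)

/-- The singular fibres, infinity included. -/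
def badFibres (A B : k[X]) (m : ℕ) : ℕ :=
  (A ^ 3 - B ^ 2).roots.toFinset.card + if (A ^ 3 - B ^ 2).natDegree < 12 * m then 1 else 0

/-- The degree of the conductor: one for a multiplicative fibre, two for an additive one. -/
def conductor (A B : k[X]) (m : ℕ) : ℕ :=
  (∑ t ∈ (A ^ 3 - B ^ 2).roots.toFinset, if A.IsRoot t then 2 else 1) +
    if (A ^ 3 - B ^ 2).natDegree < 12 * m then (if A.natDegree < 4 * m then 2 else 1) else 0

/-- The Wronskian. -/
def wr (A B : k[X]) : k[X] := 3 * derivative A * B - 2 * A * derivative B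

variable (A B : k[X])

theorem identity_A : derivative (A ^ 3 - B ^ 2) * A - 3 * (A ^ 3 - B ^ 2) * derivative A =
    B * wr A B := by
  simp only [wr, derivative_sub, derivative_pow, Nat.cast_ofNat, map_ofNat]
  ring

theorem identity_B : derivative (A ^ 3 - B ^ 2) * B - 2 * (A ^ 3 - B ^ 2) * derivative B =
    A ^ 2 * wr A B := by
  simp only [wr, derivative_sub, derivative_pow, Nat.cast_ofNat, map_ofNat]
  ring

variable [CharZero k]

/-- Proportional polynomials. -/
theorem eq_C_mul_of_wronskian {f g : k[X]} (hg : g ≠ 0)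
    (h : derivative f * g = f * derivative g) : ∃ c : k, f = C c * g := by
  have key : ∀ {p : k[X]}, p ≠ 0 → derivative p * g = p * derivative g →
      p.natDegree = g.natDegree := by
    intro p hp hpg
    rcases Nat.eq_zero_or_pos p.natDegree with hp0 | hp0
    · rcases Nat.eq_zero_or_pos g.natDegree with hg0 | hg0
      · rw [hp0, hg0]
      rw [derivative_of_natDegree_zero hp0, zero_mul, eq_comm, mul_eq_zero] at hpg
      exact absurd (natDegree_eq_zero_of_derivative_eq_zero (hpg.resolve_left hp)) hg0.ne'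
    rcases Nat.eq_zero_or_pos g.natDegree with hg0 | hg0
    · rw [derivative_of_natDegree_zero hg0, mul_zero, mul_eq_zero] at hpg
      exact absurd (natDegree_eq_zero_of_derivative_eq_zero (hpg.resolve_right hg)) hp0.ne'
    have hd : (derivative p * g).coeff (p.natDegree - 1 + g.natDegree) =
        (p * derivative g).coeff (p.natDegree - 1 + g.natDegree) := by rw [hpg]
    rw [coeff_mul_add_eq_of_natDegree_le (natDegree_derivative_le p) le_rfl,
      show p.natDegree - 1 + g.natDegree = p.natDegree + (g.natDegree - 1) by omega,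
      coeff_mul_add_eq_of_natDegree_le le_rfl (natDegree_derivative_le g), coeff_derivative,
      coeff_derivative, Nat.sub_add_cancel hp0, Nat.sub_add_cancel hg0] at hd
    have hl : p.coeff p.natDegree * g.coeff g.natDegree ≠ 0 :=
      mul_ne_zero (leadingCoeff_ne_zero.2 hp) (leadingCoeff_ne_zero.2 hg)
    rw [← Nat.cast_inj (R := k)]
    refine mul_left_cancel₀ hl ?_
    rw [Nat.cast_sub hp0, Nat.cast_sub hg0] at hd
    push_cast at hd
    linear_combination hd
  rcases eq_or_ne f 0 with rfl | hf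
  · exact ⟨0, by simp⟩
  refine ⟨f.leadingCoeff / g.leadingCoeff, by_contra fun hne => ?_⟩
  set c := f.leadingCoeff / g.leadingCoeff
  have hp : f - C c * g ≠ 0 := sub_ne_zero.2 hne
  have h1 := key hp (by simp only [derivative_sub, derivative_C_mul]; linear_combination h)
  have h2 : (f - C c * g).coeff g.natDegree = 0 := by
    rw [coeff_sub, coeff_C_mul]
    conv_lhs => rw [← key hf h]
    rw [coeff_natDegree, key hf h, coeff_natDegree, div_mul_cancel₀ _ (leadingCoeff_ne_zero.2 hg),
      sub_self]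
  rw [← h1, coeff_natDegree] at h2
  exact hp (leadingCoeff_eq_zero.1 h2)

variable {A B} {m : ℕ}

/-- The hypotheses of a non-constant invariant. -/
theorem ne_zero_of_nonconst (hD : A ^ 3 - B ^ 2 ≠ 0)
    (hj : ¬∃ c : k, A ^ 3 = C c * (A ^ 3 - B ^ 2)) : A ≠ 0 ∧ B ≠ 0 ∧ wr A B ≠ 0 := by
  refine ⟨fun e => hj ⟨0, by rw [e, map_zero, zero_mul, zero_pow three_ne_zero]⟩,
    fun e => hj ⟨1, by rw [e, C_1]; ring⟩, fun e => ?_⟩
  have h := identity_A A B
  rw [e, mul_zero] at h
  refine hj (eq_C_mul_of_wronskian hD ?_)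
  simp only [derivative_pow, Nat.cast_ofNat, map_ofNat]
  linear_combination -A ^ 2 * h

/-- A nonzero derived combination keeps all but one of the orders. -/
theorem local_bound (hD : A ^ 3 - B ^ 2 ≠ 0) (hj : ¬∃ c : k, A ^ 3 = C c * (A ^ 3 - B ^ 2))
    (t : k) :
    (A ^ 3 - B ^ 2).rootMultiplicity t + A.rootMultiplicity t ≤
        B.rootMultiplicity t + (wr A B).rootMultiplicity t + 1 ∧
      (A ^ 3 - B ^ 2).rootMultiplicity t + B.rootMultiplicity t ≤
        2 * A.rootMultiplicity t + (wr A B).rootMultiplicity t + 1 ∧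
      A.rootMultiplicity t + B.rootMultiplicity t ≤ (wr A B).rootMultiplicity t + 1 := by
  obtain ⟨hA, hB, hV⟩ := ne_zero_of_nonconst hD hj
  have key : ∀ {p q : k[X]} (a b : k[X]),
      (X - C t) ^ (p.rootMultiplicity t + q.rootMultiplicity t - 1) ∣
        a * (derivative p * q) - b * (p * derivative q) := by
    intro p q a b
    have h1 := pow_sub_one_dvd_derivative_of_pow_dvd (pow_rootMultiplicity_dvd p t)
    have h2 := pow_sub_one_dvd_derivative_of_pow_dvd (pow_rootMultiplicity_dvd q t)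
    refine dvd_sub (dvd_mul_of_dvd_right ((pow_dvd_pow _ ?_).trans
      ((pow_add (X - C t) _ _).dvd.trans (mul_dvd_mul h1 (pow_rootMultiplicity_dvd q t)))) _)
      (dvd_mul_of_dvd_right ((pow_dvd_pow _ ?_).trans
      ((pow_add (X - C t) _ _).dvd.trans (mul_dvd_mul (pow_rootMultiplicity_dvd p t) h2))) _) <;>
      omega
  refine ⟨?_, ?_, ?_⟩
  · have h := key (p := A ^ 3 - B ^ 2) (q := A) 1 3
    rw [one_mul, show (3 : k[X]) * ((A ^ 3 - B ^ 2) * derivative A) =
      3 * (A ^ 3 - B ^ 2) * derivative A by ring, identity_A,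
      ← le_rootMultiplicity_iff (mul_ne_zero hB hV), rootMultiplicity_mul (mul_ne_zero hB hV)] at h
    omega
  · have h := key (p := A ^ 3 - B ^ 2) (q := B) 1 2
    rw [one_mul, show (2 : k[X]) * ((A ^ 3 - B ^ 2) * derivative B) =
      2 * (A ^ 3 - B ^ 2) * derivative B by ring, identity_B,
      ← le_rootMultiplicity_iff (mul_ne_zero (pow_ne_zero 2 hA) hV),
      rootMultiplicity_mul (mul_ne_zero (pow_ne_zero 2 hA) hV), show A ^ 2 = A * A from sq A,
      rootMultiplicity_mul (mul_ne_zero hA hA)] at h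
    omega
  · have h := key (p := A) (q := B) 3 2
    rw [show 3 * (derivative A * B) - 2 * (A * derivative B) = wr A B by simp only [wr]; ring,
      ← le_rootMultiplicity_iff hV] at h
    omega

/-- The degree of the Wronskian. -/
theorem natDegree_wr_add_two (hA : A.natDegree ≤ 4 * m) (hB : B.natDegree ≤ 6 * m) (hm : 0 < m) :
    (wr A B).natDegree + 2 ≤ 10 * m := by
  suffices h : (wr A B).natDegree ≤ 10 * m - 2 by omega
  refine natDegree_le_iff_coeff_eq_zero.2 fun n hn => ?_
  have hdA : (derivative A).natDegree ≤ 4 * m - 1 :=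
    (natDegree_derivative_le A).trans (Nat.sub_le_sub_right hA 1)
  have hdB : (derivative B).natDegree ≤ 6 * m - 1 :=
    (natDegree_derivative_le B).trans (Nat.sub_le_sub_right hB 1)
  rw [show wr A B = C (3 : k) * (derivative A * B) - C (2 : k) * (A * derivative B) by
    simp only [wr, map_ofNat]; ring, coeff_sub, coeff_C_mul, coeff_C_mul]
  rcases Nat.lt_or_ge (10 * m - 1) n with h | h
  · rw [coeff_eq_zero_of_natDegree_lt ((natDegree_mul_le.trans
      (Nat.add_le_add hdA hB)).trans_lt (by omega)), coeff_eq_zero_of_natDegree_lt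
      ((natDegree_mul_le.trans (Nat.add_le_add hA hdB)).trans_lt (by omega))]
    ring
  · obtain rfl : n = 4 * m - 1 + 6 * m := by omega
    rw [coeff_mul_add_eq_of_natDegree_le hdA hB,
      show 4 * m - 1 + 6 * m = 4 * m + (6 * m - 1) by omega,
      coeff_mul_add_eq_of_natDegree_le hA hdB, coeff_derivative, coeff_derivative,
      Nat.sub_add_cancel (by omega : 1 ≤ 4 * m), Nat.sub_add_cancel (by omega : 1 ≤ 6 * m),
      Nat.cast_sub (by omega : 1 ≤ 4 * m), Nat.cast_sub (by omega : 1 ≤ 6 * m)]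
    push_cast
    ring

/-- At infinity. -/
theorem infinite_bound (hD : A ^ 3 - B ^ 2 ≠ 0) (hj : ¬∃ c : k, A ^ 3 = C c * (A ^ 3 - B ^ 2)) :
    B.natDegree + (wr A B).natDegree + 1 ≤ (A ^ 3 - B ^ 2).natDegree + A.natDegree ∧
      2 * A.natDegree + (wr A B).natDegree + 1 ≤ (A ^ 3 - B ^ 2).natDegree + B.natDegree ∧
      (wr A B).natDegree + 1 ≤ A.natDegree + B.natDegree := by
  obtain ⟨hA, hB, hV⟩ := ne_zero_of_nonconst hD hj
  have key : ∀ (p q : k[X]) (a b : k), C a * (derivative p * q) - C b * (p * derivative q) ≠ 0 →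
      (C a * (derivative p * q) - C b * (p * derivative q)).natDegree + 1 ≤
        p.natDegree + q.natDegree := by
    intro p q a b hne
    rcases Nat.eq_zero_or_pos (p.natDegree + q.natDegree) with h0 | h0
    · exact absurd (by rw [derivative_of_natDegree_zero (show p.natDegree = 0 by omega),
        derivative_of_natDegree_zero (show q.natDegree = 0 by omega)]; simp) hne
    refine Nat.add_le_of_le_sub h0 ((natDegree_sub_le _ _).trans (max_le ?_ ?_)) <;>
      refine (natDegree_C_mul_le _ _).trans ?_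
    · rcases Nat.eq_zero_or_pos p.natDegree with h | h
      · rw [derivative_of_natDegree_zero h, zero_mul, natDegree_zero]; omega
      · exact natDegree_mul_le.trans (by have := natDegree_derivative_le p; omega)
    · rcases Nat.eq_zero_or_pos q.natDegree with h | h
      · rw [derivative_of_natDegree_zero h, mul_zero, natDegree_zero]; omega
      · exact natDegree_mul_le.trans (by have := natDegree_derivative_le q; omega)
  have e1 : C (1 : k) * (derivative (A ^ 3 - B ^ 2) * A) -
      C 3 * ((A ^ 3 - B ^ 2) * derivative A) = B * wr A B := by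
    rw [← identity_A, C_1, map_ofNat]; ring
  have e2 : C (1 : k) * (derivative (A ^ 3 - B ^ 2) * B) -
      C 2 * ((A ^ 3 - B ^ 2) * derivative B) = A ^ 2 * wr A B := by
    rw [← identity_B, C_1, map_ofNat]; ring
  have e3 : C (3 : k) * (derivative A * B) - C 2 * (A * derivative B) = wr A B := by
    simp only [wr, map_ofNat]; ring
  have h1 := key _ _ _ _ (e1 ▸ mul_ne_zero hB hV)
  have h2 := key _ _ _ _ (e2 ▸ mul_ne_zero (pow_ne_zero 2 hA) hV)
  have h3 := key _ _ _ _ (e3 ▸ hV)
  rw [e1, natDegree_mul hB hV] at h1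
  rw [e2, natDegree_mul (pow_ne_zero 2 hA) hV, natDegree_pow] at h2
  rw [e3] at h3
  exact ⟨h1, h2, h3⟩

theorem pos_level (hm : Minimal A B m) (hD : A ^ 3 - B ^ 2 ≠ 0)
    (hj : ¬∃ c : k, A ^ 3 = C c * (A ^ 3 - B ^ 2)) : 0 < m := by
  by_contra h
  have h1 := hm.1
  have h2 := hm.2.1
  obtain ⟨hA, hB, hV⟩ := ne_zero_of_nonconst hD hj
  refine hV ?_
  rw [wr, derivative_of_natDegree_zero (show A.natDegree = 0 by omega),
    derivative_of_natDegree_zero (show B.natDegree = 0 by omega)]
  simp

/-- The excess at a finite place, with the two orders that make it attain two. -/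
theorem excess_le (hm : Minimal A B m) (hD : A ^ 3 - B ^ 2 ≠ 0)
    (hj : ¬∃ c : k, A ^ 3 = C c * (A ^ 3 - B ^ 2)) (t : k) :
    (A ^ 3 - B ^ 2).rootMultiplicity t ≤
        (wr A B).rootMultiplicity t + (if A.IsRoot t then 2 else 1) ∧
      ((A ^ 3 - B ^ 2).rootMultiplicity t = (wr A B).rootMultiplicity t + 2 →
        2 ≤ A.rootMultiplicity t ∧ 3 ≤ B.rootMultiplicity t) := by
  obtain ⟨hA, hB, -⟩ := ne_zero_of_nonconst hD hj
  obtain ⟨h1, h2, h3⟩ := local_bound hD hj t
  have hmin : A.rootMultiplicity t < 4 ∨ B.rootMultiplicity t < 6 := by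
    by_contra h
    push Not at h
    exact hm.2.2.2 t ⟨(le_rootMultiplicity_iff hA).1 h.1, (le_rootMultiplicity_iff hB).1 h.2⟩
  refine ⟨?_, fun he => by omega⟩
  split_ifs with hr
  · omega
  · have : A.rootMultiplicity t = 0 := rootMultiplicity_eq_zero hr
    omega

/-- The excess at infinity. -/
theorem excess_infinity (hm : Minimal A B m) (hD : A ^ 3 - B ^ 2 ≠ 0)
    (hj : ¬∃ c : k, A ^ 3 = C c * (A ^ 3 - B ^ 2)) :
    12 * m + (wr A B).natDegree + 2 ≤
        (A ^ 3 - B ^ 2).natDegree + 10 * m + (if A.natDegree < 4 * m then 2 else 1) ∧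
      (12 * m + (wr A B).natDegree + 2 = (A ^ 3 - B ^ 2).natDegree + 10 * m + 2 →
        A.natDegree + 2 ≤ 4 * m ∧ B.natDegree + 3 ≤ 6 * m) := by
  obtain ⟨h1, h2, h3⟩ := infinite_bound hD hj
  obtain ⟨hA, hB, hmin, -⟩ := hm
  refine ⟨?_, fun he => by omega⟩
  split_ifs with h <;> omega

variable [IsAlgClosed k]

theorem natDegree_eq_sum_roots (p : k[X]) :
    p.natDegree = ∑ t ∈ p.roots.toFinset, p.rootMultiplicity t := by
  rw [(IsAlgClosed.splits p).natDegree_eq_card_roots, ← Multiset.toFinset_sum_count_eq]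
  exact Finset.sum_congr rfl fun t _ => count_roots p

theorem sum_rootMultiplicity_le (p : k[X]) (s : Finset k) :
    ∑ t ∈ s, p.rootMultiplicity t ≤ p.natDegree := by
  rw [natDegree_eq_sum_roots p]
  calc ∑ t ∈ s, p.rootMultiplicity t ≤ ∑ t ∈ s ∪ p.roots.toFinset, p.rootMultiplicity t :=
        Finset.sum_le_sum_of_subset Finset.subset_union_left
    _ = ∑ t ∈ p.roots.toFinset, p.rootMultiplicity t :=
        (Finset.sum_subset Finset.subset_union_right fun t _ ht => by
          rw [← count_roots, Multiset.count_eq_zero.2 fun h => ht (Multiset.mem_toFinset.2 h)]).symm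

/-- **Szpiro's inequality over the line.** -/
theorem szpiro (hm : Minimal A B m) (hD : A ^ 3 - B ^ 2 ≠ 0)
    (hj : ¬∃ c : k, A ^ 3 = C c * (A ^ 3 - B ^ 2)) : 12 * m + 12 ≤ 6 * conductor A B m := by
  have hm0 := pos_level hm hD hj
  obtain ⟨hA, hB, hV⟩ := ne_zero_of_nonconst hD hj
  have hsum : (A ^ 3 - B ^ 2).natDegree ≤ (wr A B).natDegree +
      ∑ t ∈ (A ^ 3 - B ^ 2).roots.toFinset, if A.IsRoot t then 2 else 1 := by
    rw [natDegree_eq_sum_roots (A ^ 3 - B ^ 2)]
    refine le_trans (Finset.sum_le_sum fun t _ => (excess_le hm hD hj t).1) ?_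
    rw [Finset.sum_add_distrib]
    exact Nat.add_le_add_right (sum_rootMultiplicity_le _ _) _
  have hw := natDegree_wr_add_two hm.1 hm.2.1 hm0
  have hinf := (excess_infinity hm hD hj).1
  have hdeg : (A ^ 3 - B ^ 2).natDegree ≤ 12 * m := by
    refine (natDegree_sub_le _ _).trans (max_le ?_ ?_) <;> rw [natDegree_pow]
    · linarith [hm.1]
    · linarith [hm.2.1]
  rw [conductor]
  split_ifs with h1 h2
  · rw [if_pos h2] at hinf; omega
  · rw [if_neg h2] at hinf; omega
  · omega

/-- **Semistable: at least four singular fibres.** -/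
theorem four_le_badFibres (hm : Minimal A B m) (hD : A ^ 3 - B ^ 2 ≠ 0)
    (hj : ¬∃ c : k, A ^ 3 = C c * (A ^ 3 - B ^ 2))
    (hss : ∀ t, (A ^ 3 - B ^ 2).IsRoot t → ¬A.IsRoot t)
    (hinf : (A ^ 3 - B ^ 2).natDegree < 12 * m → A.natDegree = 4 * m) :
    4 ≤ badFibres A B m := by
  have h := szpiro hm hD hj
  have hm0 := pos_level hm hD hj
  have e : conductor A B m = badFibres A B m := by
    rw [conductor, badFibres, Finset.card_eq_sum_ones]
    congr 1
    · exact Finset.sum_congr rfl fun t ht =>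
        if_neg (hss t ((mem_roots hD).1 (Multiset.mem_toFinset.1 ht)))
    · split_ifs with h1 h2
      · have := hinf h1; omega
      · rfl
      · rfl
  omega

/-- **At least three singular fibres.** -/
theorem three_le_badFibres (hm : Minimal A B m) (hD : A ^ 3 - B ^ 2 ≠ 0)
    (hj : ¬∃ c : k, A ^ 3 = C c * (A ^ 3 - B ^ 2)) : 3 ≤ badFibres A B m := by
  by_contra hlt
  obtain ⟨hA, hB, hV⟩ := ne_zero_of_nonconst hD hj
  have hm0 := pos_level hm hD hj
  have hsz := szpiro hm hD hj
  set S := (A ^ 3 - B ^ 2).roots.toFinset with hS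
  set δ := fun t => (A ^ 3 - B ^ 2).rootMultiplicity t
  set ν := fun t => (wr A B).rootMultiplicity t
  have hle : ∀ t ∈ S, δ t ≤ ν t + 2 := fun t _ =>
    (excess_le hm hD hj t).1.trans (by simp only [ν]; split_ifs <;> omega)
  have hN : conductor A B m ≤ 2 * badFibres A B m := by
    rw [conductor, badFibres, Finset.card_eq_sum_ones, mul_add, Finset.mul_sum]
    refine Nat.add_le_add (Finset.sum_le_sum fun t _ => by split_ifs <;> omega) ?_
    split_ifs <;> omega
  have hsum : (A ^ 3 - B ^ 2).natDegree = ∑ t ∈ S, δ t := natDegree_eq_sum_roots _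
  have hνsum : ∑ t ∈ S, ν t ≤ (wr A B).natDegree := sum_rootMultiplicity_le _ _
  have hw := natDegree_wr_add_two hm.1 hm.2.1 hm0
  have hdeg : (A ^ 3 - B ^ 2).natDegree ≤ 12 * m := by
    refine (natDegree_sub_le _ _).trans (max_le ?_ ?_) <;> rw [natDegree_pow]
    · linarith [hm.1]
    · linarith [hm.2.1]
  obtain ⟨hinf, hinf'⟩ := excess_infinity hm hD hj
  have hinf2 : 12 * m + (wr A B).natDegree + 2 ≤ (A ^ 3 - B ^ 2).natDegree + 10 * m + 2 := by
    split_ifs at hinf <;> omega
  have hcard : (A ^ 3 - B ^ 2).roots.toFinset.card = S.card := rfl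
  have hsum2 : ∑ t ∈ S, δ t ≤ ∑ t ∈ S, ν t + 2 * S.card := by
    rw [Finset.card_eq_sum_ones, Finset.mul_sum, ← Finset.sum_add_distrib]
    exact Finset.sum_le_sum fun t ht => (hle t ht).trans (by simp)
  have hbad : badFibres A B m = S.card +
      if (A ^ 3 - B ^ 2).natDegree < 12 * m then 1 else 0 := rfl
  have hm1 : m = 1 := by omega
  -- all the bounds are attained
  have heq : ∀ t ∈ S, δ t = ν t + 2 := by
    intro t ht
    by_contra hne
    have hsum3 : ∑ t ∈ S, δ t < ∑ t ∈ S, ν t + 2 * S.card := by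
      rw [Finset.card_eq_sum_ones, Finset.mul_sum, ← Finset.sum_add_distrib]
      exact Finset.sum_lt_sum (fun t ht => (hle t ht).trans (by simp))
        ⟨t, ht, by have := hle t ht; simp only [mul_one]; omega⟩
    split_ifs at hbad <;> omega
  set P := ∏ t ∈ S, (X - C t) with hP
  have hPdeg : P.natDegree = S.card := natDegree_finsetProd_X_sub_C_eq_card _ _
  have hPdvd : ∀ {p : k[X]} (e : ℕ), p ≠ 0 → (∀ t ∈ S, e ≤ p.rootMultiplicity t) → P ^ e ∣ p := by
    intro p e hp he
    rw [hP, ← Finset.prod_pow]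
    refine Finset.prod_dvd_of_coprime (fun s _ t _ hst => ?_)
      fun t ht => (le_rootMultiplicity_iff hp).1 (he t ht)
    exact (pairwise_coprime_X_sub_C Function.injective_id hst).pow
  have hA2 : P ^ 2 ∣ A := hPdvd 2 hA fun t ht => ((excess_le hm hD hj t).2 (heq t ht)).1
  have hB3 : P ^ 3 ∣ B := hPdvd 3 hB fun t ht => ((excess_le hm hD hj t).2 (heq t ht)).2
  have hbounds : A.natDegree ≤ 2 * S.card ∧ B.natDegree ≤ 3 * S.card := by
    have := hm.1
    have := hm.2.1
    split_ifs at hbad with hb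
    · have := hinf' (by omega); omega
    · omega
  obtain ⟨q, hq⟩ := hA2
  obtain ⟨r, hr⟩ := hB3
  have hq0 : q.natDegree = 0 := by
    have h := congrArg natDegree hq
    rw [natDegree_mul (fun e => hA (by rw [hq, e, zero_mul])) (fun e => hA (by rw [hq, e, mul_zero])),
      natDegree_pow, hPdeg] at h
    omega
  have hr0 : r.natDegree = 0 := by
    have h := congrArg natDegree hr
    rw [natDegree_mul (fun e => hB (by rw [hr, e, zero_mul])) (fun e => hB (by rw [hr, e, mul_zero])),
      natDegree_pow, hPdeg] at h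
    omega
  rw [eq_C_of_natDegree_eq_zero hq0] at hq
  rw [eq_C_of_natDegree_eq_zero hr0] at hr
  set a := q.coeff 0
  set b := r.coeff 0
  have hab : a ^ 3 - b ^ 2 ≠ 0 := fun e => hD (by
    rw [hq, hr, show (P ^ 2 * C a) ^ 3 - (P ^ 3 * C b) ^ 2 = P ^ 6 * C (a ^ 3 - b ^ 2) by
      simp only [C_sub, C_pow]; ring, e, C_0, mul_zero])
  refine hj ⟨a ^ 3 / (a ^ 3 - b ^ 2), ?_⟩
  rw [hq, hr, show (P ^ 2 * C a) ^ 3 - (P ^ 3 * C b) ^ 2 = C (a ^ 3 - b ^ 2) * P ^ 6 by
    simp only [C_sub, C_pow]; ring, ← mul_assoc, ← C_mul, div_mul_cancel₀ _ hab, C_pow]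
  ring

end FA.SzpiroLine
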